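/-
S30 (Program A+), leaf (b), part 1: the abstract `p`-adic limit of a compatible system of
additive relations on a finite free `ℤ`-module `L`, as an `R`-linear endomorphism of
`M = R ⊗[ℤ] L`, for a complete Noetherian local ring `R` with `p ∈ 𝔪`.  Mathlib only.
-/
import Mathlib

set_option autoImplicit false

namespace Fermat.Agent.S30.H20

open TensorProduct IsLocalRing

section Scalar

variable {R : Type*} [CommRing R] [IsLocalRing R] [IsNoetherianRing R]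

/-- A principal ideal of a Noetherian local ring is closed for the `𝔪`-adic topology. -/
theorem exists_eq_mul_of_forall_pow (a x : R)
    (h : ∀ k : ℕ, ∃ y ∈ maximalIdeal R ^ k, ∃ s : R, x = y + a * s) :
    ∃ s : R, x = a * s := by
  have hK := Ideal.iInf_pow_smul_eq_bot_of_isLocalRing (R := R) (M := R ⧸ Ideal.span {a})
    (maximalIdeal R) (Ideal.IsPrime.ne_top inferInstance)
  have hx : (Ideal.Quotient.mk (Ideal.span {a}) x : R ⧸ Ideal.span {a}) ∈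
      (⨅ i : ℕ, maximalIdeal R ^ i • ⊤ : Submodule R (R ⧸ Ideal.span {a})) := by
    rw [Submodule.mem_iInf]
    intro k
    obtain ⟨y, hy, s, rfl⟩ := h k
    have h0 : Ideal.Quotient.mk (Ideal.span {a}) (a * s) = 0 :=
      Ideal.Quotient.eq_zero_iff_mem.2 (Ideal.mul_mem_right _ _ (Ideal.mem_span_singleton_self a))
    have h1 : (Ideal.Quotient.mk (Ideal.span {a}) (y + a * s) : R ⧸ Ideal.span {a}) =
        y • (1 : R ⧸ Ideal.span {a}) := by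
      rw [map_add, h0, add_zero, Algebra.smul_def, mul_one]
      rfl
    rw [h1]
    exact Submodule.smul_mem_smul hy Submodule.mem_top
  rw [hK] at hx
  have h2 : Ideal.Quotient.mk (Ideal.span {a}) x = 0 := by simpa using hx
  rw [Ideal.Quotient.eq_zero_iff_mem, Ideal.mem_span_singleton'] at h2
  obtain ⟨s, hs⟩ := h2
  exact ⟨s, by rw [← hs, mul_comm]⟩

variable [IsAdicComplete (maximalIdeal R) R]

/-- A `p`-adically Cauchy sequence of integers converges `p`-adically in `R`. -/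
theorem exists_limit_scalar {p : ℕ} (hp : (p : R) ∈ maximalIdeal R) (c : ℕ → ℤ)
    (hc : ∀ n, (p : ℤ) ^ n ∣ c (n + 1) - c n) :
    ∃ r : R, ∀ n, ∃ s : R, r - (c n : R) = (p : R) ^ n * s := by
  have hmono : ∀ m n, m ≤ n → (p : ℤ) ^ m ∣ c n - c m := by
    intro m n hmn
    induction n, hmn using Nat.le_induction with
    | base => simp
    | succ n hmn ih =>
      have h1 : (p : ℤ) ^ m ∣ c (n + 1) - c n := (pow_dvd_pow _ hmn).trans (hc n)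
      have h2 : c (n + 1) - c m = (c (n + 1) - c n) + (c n - c m) := by ring
      rw [h2]
      exact dvd_add h1 ih
  have hcast : ∀ m n, m ≤ n → ∃ s : R, (c n : R) - (c m : R) = (p : R) ^ m * s := by
    intro m n hmn
    obtain ⟨d, hd⟩ := hmono m n hmn
    refine ⟨(d : R), ?_⟩
    rw [← Int.cast_sub, hd]
    push_cast
    ring
  have hpm : ∀ m, (p : R) ^ m ∈ maximalIdeal R ^ m := fun m => Ideal.pow_mem_pow hp m
  obtain ⟨r, hr⟩ := IsPrecomplete.prec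
    (IsAdicComplete.toIsPrecomplete (I := maximalIdeal R) (M := R))
    (f := fun n => (c n : R)) (by
      intro m n hmn
      rw [SModEq.sub_mem, smul_eq_mul, Ideal.mul_top]
      obtain ⟨s, hs⟩ := hcast m n hmn
      have h3 : (c m : R) - (c n : R) = (p : R) ^ m * (-s) := by
        rw [mul_neg, ← hs]
        ring
      rw [h3]
      exact Ideal.mul_mem_right _ _ (hpm m))
  refine ⟨r, fun n => ?_⟩
  apply exists_eq_mul_of_forall_pow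
  intro k
  obtain ⟨s, hs⟩ := hcast n (max k n) (le_max_right k n)
  have h4 := hr (max k n)
  rw [SModEq.sub_mem, smul_eq_mul, Ideal.mul_top] at h4
  refine ⟨r - (c (max k n) : R), ?_, s, ?_⟩
  · have h5 : r - (c (max k n) : R) = -((c (max k n) : R) - r) := by ring
    rw [h5]
    exact neg_mem (Ideal.pow_le_pow_right (le_max_left k n) h4)
  · rw [← hs]
    ring

end Scalar

section Vector

variable (R : Type*) [CommRing R] (L : Type*) [AddCommGroup L]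

/-- The submodule `p ^ n • M` of `M = R ⊗[ℤ] L`. -/
def pPow (p n : ℕ) : Submodule R (R ⊗[ℤ] L) :=
  LinearMap.range (((p : R) ^ n) • (LinearMap.id : (R ⊗[ℤ] L) →ₗ[R] (R ⊗[ℤ] L)))

variable {R L}

theorem mem_pPow {p n : ℕ} {x : R ⊗[ℤ] L} :
    x ∈ pPow R L p n ↔ ∃ y : R ⊗[ℤ] L, x = ((p : R) ^ n) • y := by
  constructor
  · rintro ⟨y, rfl⟩
    exact ⟨y, rfl⟩
  · rintro ⟨y, rfl⟩
    exact ⟨y, rfl⟩

theorem smul_mem_pPow (p n : ℕ) (y : R ⊗[ℤ] L) : ((p : R) ^ n) • y ∈ pPow R L p n :=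
  mem_pPow.2 ⟨y, rfl⟩

theorem pPow_anti {p m n : ℕ} (h : m ≤ n) : pPow R L p n ≤ pPow R L p m := by
  intro x hx
  obtain ⟨y, rfl⟩ := mem_pPow.1 hx
  refine mem_pPow.2 ⟨((p : R) ^ (n - m)) • y, ?_⟩
  rw [smul_smul, ← pow_add, Nat.add_sub_cancel' h]

/-- An `R`-linear endomorphism preserves `p ^ n • M`. -/
theorem map_mem_pPow (Φ : Module.End R (R ⊗[ℤ] L)) {p n : ℕ} {x : R ⊗[ℤ] L}
    (hx : x ∈ pPow R L p n) : Φ x ∈ pPow R L p n := by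
  obtain ⟨y, rfl⟩ := mem_pPow.1 hx
  rw [map_smul]
  exact smul_mem_pPow p n _

theorem one_tmul_zsmul (z : ℤ) (ψ : L) :
    (1 : R) ⊗ₜ[ℤ] (z • ψ) = (z : R) • ((1 : R) ⊗ₜ[ℤ] ψ) := by
  rw [TensorProduct.tmul_smul, Int.cast_smul_eq_zsmul]

theorem one_tmul_sum_zsmul {ι : Type*} (s : Finset ι) (a : ι → ℤ) (v : ι → L) :
    (1 : R) ⊗ₜ[ℤ] (∑ j ∈ s, a j • v j) = ∑ j ∈ s, (a j : R) • ((1 : R) ⊗ₜ[ℤ] v j) := by
  rw [TensorProduct.tmul_sum]
  exact Finset.sum_congr rfl fun j _ => one_tmul_zsmul (a j) (v j)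

theorem tmul_mem_pPow {p n : ℕ} {ψ : L} (h : ∃ φ : L, ψ = ((p : ℤ) ^ n) • φ) :
    (1 : R) ⊗ₜ[ℤ] ψ ∈ pPow R L p n := by
  obtain ⟨φ, rfl⟩ := h
  refine mem_pPow.2 ⟨(1 : R) ⊗ₜ[ℤ] φ, ?_⟩
  rw [one_tmul_zsmul]
  push_cast
  rfl

/-- If `Φ (1 ⊗ ψ) ∈ p ^ n • M` for all `ψ`, then `Φ` maps `M` into `p ^ n • M`. -/
theorem forall_mem_pPow_of_tmul {Φ : Module.End R (R ⊗[ℤ] L)} {p n : ℕ}
    (h : ∀ ψ : L, Φ ((1 : R) ⊗ₜ[ℤ] ψ) ∈ pPow R L p n) (v : R ⊗[ℤ] L) :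
    Φ v ∈ pPow R L p n := by
  induction v using TensorProduct.induction_on with
  | zero => rw [map_zero]; exact Submodule.zero_mem _
  | tmul r ψ =>
    have h1 : (r ⊗ₜ[ℤ] ψ : R ⊗[ℤ] L) = r • ((1 : R) ⊗ₜ[ℤ] ψ) := by
      rw [TensorProduct.smul_tmul', smul_eq_mul, mul_one]
    rw [h1, map_smul]
    exact Submodule.smul_mem _ _ (h ψ)
  | add x y hx hy => rw [map_add]; exact Submodule.add_mem _ hx hy

variable [IsLocalRing R] [IsNoetherianRing R] [Module.Free ℤ L] [Module.Finite ℤ L]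

omit [IsNoetherianRing R] [Module.Free ℤ L] [Module.Finite ℤ L] in
theorem pPow_le {p : ℕ} (hp : (p : R) ∈ maximalIdeal R) (n : ℕ) :
    pPow R L p n ≤ (maximalIdeal R ^ n) • (⊤ : Submodule R (R ⊗[ℤ] L)) := by
  intro x hx
  obtain ⟨y, rfl⟩ := mem_pPow.1 hx
  exact Submodule.smul_mem_smul (Ideal.pow_mem_pow hp n) Submodule.mem_top

omit [Module.Free ℤ L] in
/-- `⋂ₙ p ^ n • M = 0`. -/
theorem eq_zero_of_forall_mem_pPow {p : ℕ} (hp : (p : R) ∈ maximalIdeal R) {x : R ⊗[ℤ] L}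
    (h : ∀ n, x ∈ pPow R L p n) : x = 0 := by
  have hK := Ideal.iInf_pow_smul_eq_bot_of_isLocalRing (R := R) (M := R ⊗[ℤ] L)
    (maximalIdeal R) (Ideal.IsPrime.ne_top inferInstance)
  have hx : x ∈ (⨅ i : ℕ, maximalIdeal R ^ i • ⊤ : Submodule R (R ⊗[ℤ] L)) := by
    rw [Submodule.mem_iInf]
    exact fun i => pPow_le hp i (h i)
  rw [hK] at hx
  simpa using hx

omit [Module.Free ℤ L] in
/-- Two endomorphisms of `M` that agree on `1 ⊗ L` modulo every `p ^ n` are equal. -/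
theorem end_ext_of_forall_mem_pPow {p : ℕ} (hp : (p : R) ∈ maximalIdeal R)
    {Φ₁ Φ₂ : Module.End R (R ⊗[ℤ] L)}
    (h : ∀ (n : ℕ) (ψ : L), Φ₁ ((1 : R) ⊗ₜ[ℤ] ψ) - Φ₂ ((1 : R) ⊗ₜ[ℤ] ψ) ∈ pPow R L p n) :
    Φ₁ = Φ₂ := by
  apply LinearMap.ext
  intro x
  induction x using TensorProduct.induction_on with
  | zero => rw [map_zero, map_zero]
  | tmul r ψ =>
    have h1 : (r ⊗ₜ[ℤ] ψ : R ⊗[ℤ] L) = r • ((1 : R) ⊗ₜ[ℤ] ψ) := by
      rw [TensorProduct.smul_tmul', smul_eq_mul, mul_one]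
    rw [h1, map_smul, map_smul]
    congr 1
    exact sub_eq_zero.1 (eq_zero_of_forall_mem_pPow hp (fun n => h n ψ))
  | add x y hx hy => rw [map_add, map_add, hx, hy]

variable [IsAdicComplete (maximalIdeal R) R]

/-- A `p`-adically Cauchy sequence in `L` converges in `M = R ⊗[ℤ] L`. -/
theorem exists_limit_vec {p : ℕ} (hp : (p : R) ∈ maximalIdeal R) (ψ : ℕ → L)
    (hψ : ∀ n, ∃ φ : L, ψ (n + 1) - ψ n = ((p : ℤ) ^ n) • φ) :
    ∃ x : R ⊗[ℤ] L, ∀ n, x - (1 : R) ⊗ₜ[ℤ] ψ n ∈ pPow R L p n := by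
  classical
  let b := Module.Free.chooseBasis ℤ L
  have hc : ∀ j n, (p : ℤ) ^ n ∣ b.repr (ψ (n + 1)) j - b.repr (ψ n) j := by
    intro j n
    obtain ⟨φ, hφ⟩ := hψ n
    refine ⟨b.repr φ j, ?_⟩
    have h1 := congrArg (fun v => b.repr v j) hφ
    simpa [map_sub, smul_eq_mul] using h1
  choose r hr using fun j => exists_limit_scalar hp (fun n => b.repr (ψ n) j) (hc j)
  choose s hs using hr
  refine ⟨∑ j, r j • ((1 : R) ⊗ₜ[ℤ] b j), fun n => ?_⟩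
  have h1 : (1 : R) ⊗ₜ[ℤ] ψ n = ∑ j, ((b.repr (ψ n) j : ℤ) : R) • ((1 : R) ⊗ₜ[ℤ] b j) := by
    conv_lhs => rw [← b.sum_repr (ψ n)]
    exact one_tmul_sum_zsmul _ _ _
  rw [h1, ← Finset.sum_sub_distrib]
  have h2 : ∀ j, r j • ((1 : R) ⊗ₜ[ℤ] b j) - ((b.repr (ψ n) j : ℤ) : R) • ((1 : R) ⊗ₜ[ℤ] b j)
      = ((p : R) ^ n) • (s j n • ((1 : R) ⊗ₜ[ℤ] b j)) := by
    intro j
    rw [← sub_smul, hs j n, mul_smul]
  simp_rw [h2]
  rw [← Finset.smul_sum]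
  exact smul_mem_pPow _ _ _

/-- A compatible system of additive relations on `L`: total, single valued modulo `p ^ n`,
decreasing in `n`. -/
structure IsRelSys (p : ℕ) (rel : ℕ → AddSubgroup (L × L)) : Prop where
  total : ∀ n ψ, ∃ ψ', (ψ, ψ') ∈ rel n
  uniq : ∀ n ψ', ((0 : L), ψ') ∈ rel n → ∃ φ : L, ψ' = ((p : ℤ) ^ n) • φ
  anti : ∀ n, rel (n + 1) ≤ rel n

/-- `Φ` is the `p`-adic limit of the system of relations `rel`. -/
def Represents (p : ℕ) (Φ : Module.End R (R ⊗[ℤ] L)) (rel : ℕ → AddSubgroup (L × L)) : Prop :=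
  ∀ n ψ ψ', (ψ, ψ') ∈ rel n → Φ ((1 : R) ⊗ₜ[ℤ] ψ) - (1 : R) ⊗ₜ[ℤ] ψ' ∈ pPow R L p n

omit [Module.Free ℤ L] [Module.Finite ℤ L] in
theorem IsRelSys.sub_eq {p : ℕ} {rel : ℕ → AddSubgroup (L × L)} (h : IsRelSys p rel)
    {n : ℕ} {ψ ψ' ψ'' : L} (h1 : (ψ, ψ') ∈ rel n) (h2 : (ψ, ψ'') ∈ rel n) :
    ∃ φ : L, ψ' - ψ'' = ((p : ℤ) ^ n) • φ := by
  apply h.uniq n
  have h3 := (rel n).sub_mem h1 h2
  simpa using h3

omit [IsAdicComplete (maximalIdeal R) R] [Module.Free ℤ L] in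
theorem represents_unique {p : ℕ} (hp : (p : R) ∈ maximalIdeal R)
    {rel : ℕ → AddSubgroup (L × L)} (h : IsRelSys p rel) {Φ₁ Φ₂ : Module.End R (R ⊗[ℤ] L)}
    (h₁ : Represents p Φ₁ rel) (h₂ : Represents p Φ₂ rel) : Φ₁ = Φ₂ := by
  apply end_ext_of_forall_mem_pPow hp
  intro n ψ
  obtain ⟨ψ', hψ'⟩ := h.total n ψ
  have h3 : Φ₁ ((1 : R) ⊗ₜ[ℤ] ψ) - Φ₂ ((1 : R) ⊗ₜ[ℤ] ψ) =
      (Φ₁ ((1 : R) ⊗ₜ[ℤ] ψ) - (1 : R) ⊗ₜ[ℤ] ψ') - (Φ₂ ((1 : R) ⊗ₜ[ℤ] ψ) - (1 : R) ⊗ₜ[ℤ] ψ') := by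
    abel
  rw [h3]
  exact Submodule.sub_mem _ (h₁ n ψ ψ' hψ') (h₂ n ψ ψ' hψ')

/-- **The limit lemma**: a compatible system of relations has a `p`-adic limit. -/
theorem exists_represents {p : ℕ} (hp : (p : R) ∈ maximalIdeal R)
    {rel : ℕ → AddSubgroup (L × L)} (h : IsRelSys p rel) :
    ∃ Φ : Module.End R (R ⊗[ℤ] L), Represents p Φ rel := by
  classical
  let b := Module.Free.chooseBasis ℤ L
  choose ψ' hψ' using fun (j : Module.Free.ChooseBasisIndex ℤ L) (n : ℕ) => h.total n (b j)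
  have hcauchy : ∀ j n, ∃ φ : L, ψ' j (n + 1) - ψ' j n = ((p : ℤ) ^ n) • φ := by
    intro j n
    exact h.sub_eq (h.anti n (hψ' j (n + 1))) (hψ' j n)
  choose x hx using fun j => exists_limit_vec (R := R) hp (ψ' j) (hcauchy j)
  let bR := Algebra.TensorProduct.basis R b
  refine ⟨bR.constr R x, ?_⟩
  intro n ψ ψ₁ hψ
  -- the lift of `ψ` computed from the lifts of the basis vectors
  set ψ₀ : L := ∑ j, b.repr ψ j • ψ' j n with hψ₀
  have hrel : (ψ, ψ₀) ∈ rel n := by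
    have h1 : (ψ, ψ₀) = ∑ j, b.repr ψ j • (b j, ψ' j n) := by
      ext
      · simp [Prod.fst_sum, b.sum_repr]
      · simp [Prod.snd_sum, hψ₀]
    rw [h1]
    exact (rel n).sum_mem fun j _ => (rel n).zsmul_mem (hψ' j n) _
  have hdiff := h.sub_eq hrel hψ
  have h1 : (1 : R) ⊗ₜ[ℤ] ψ = ∑ j, ((b.repr ψ j : ℤ) : R) • ((1 : R) ⊗ₜ[ℤ] b j) := by
    conv_lhs => rw [← b.sum_repr ψ]
    exact one_tmul_sum_zsmul _ _ _
  have h2 : bR.constr R x ((1 : R) ⊗ₜ[ℤ] ψ) = ∑ j, ((b.repr ψ j : ℤ) : R) • x j := by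
    rw [h1, map_sum]
    refine Finset.sum_congr rfl fun j _ => ?_
    rw [map_smul, ← Algebra.TensorProduct.basis_apply, Module.Basis.constr_basis]
  have h3 : (1 : R) ⊗ₜ[ℤ] ψ₀ = ∑ j, ((b.repr ψ j : ℤ) : R) • ((1 : R) ⊗ₜ[ℤ] ψ' j n) :=
    one_tmul_sum_zsmul _ _ _
  have h4 : bR.constr R x ((1 : R) ⊗ₜ[ℤ] ψ) - (1 : R) ⊗ₜ[ℤ] ψ₁ =
      (∑ j, ((b.repr ψ j : ℤ) : R) • (x j - (1 : R) ⊗ₜ[ℤ] ψ' j n)) +
        (1 : R) ⊗ₜ[ℤ] (ψ₀ - ψ₁) := by
    rw [h2, TensorProduct.tmul_sub, h3]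
    simp only [smul_sub, Finset.sum_sub_distrib]
    abel
  rw [h4]
  refine Submodule.add_mem _ (Submodule.sum_mem _ fun j _ => Submodule.smul_mem _ _ (hx j n)) ?_
  exact tmul_mem_pPow hdiff

end Vector

end Fermat.Agent.S30.H20
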