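/-
S30 (Program A+), leaf (b), part 2: the `p`-adic limit action.

From a system `AJ n : L →+ J` with `ker (AJ n) = p ^ n L`, image `J[p ^ n]` and
`p • AJ (n + 1) = AJ n`, and an additive action of a monoid `G` on `J`, we construct the unique
`ρ : G →* End_R (R ⊗[ℤ] L)` with `σ • AJ n ψ = AJ n ψ' → ρ σ (1 ⊗ ψ) ≡ 1 ⊗ ψ' mod p ^ n`,
and derive Hecke commutation, the Frobenius quadratic relation, triviality of inertia and adic
continuity for any such `ρ`.  Mathlib only.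
-/
import Mathlib
import Fermat.Agent.S30.H20.LimitMap

set_option autoImplicit false

namespace Fermat.Agent.S30.H20

open TensorProduct IsLocalRing

variable {L : Type*} [AddCommGroup L] {J : Type*} [AddCommGroup J]

/-- The hypotheses (R1), (R2a), (R2b) on the family of maps `AJ n : L →+ J`
(`ker` is literally (R1) of lead note 17). -/
structure IsAJSystem (p : ℕ) (AJ : ℕ → L →+ J) : Prop where
  ker : ∀ n ψ, AJ n ψ = 0 ↔ ∃ φ : L, ψ = p ^ n • φ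
  surj : ∀ n (x : J), p ^ n • x = 0 → ∃ ψ, AJ n ψ = x
  compat : ∀ n ψ, p • AJ (n + 1) ψ = AJ n ψ

theorem nsmul_eq_zsmul_pow (p n : ℕ) (φ : L) : p ^ n • φ = ((p : ℤ) ^ n) • φ := by
  rw [← natCast_zsmul]
  push_cast
  rfl

/-- (R1) in `ℤ`-scalar form. -/
theorem IsAJSystem.ker' {p : ℕ} {AJ : ℕ → L →+ J} (h : IsAJSystem p AJ) (n : ℕ) (ψ : L) :
    AJ n ψ = 0 ↔ ∃ φ : L, ψ = ((p : ℤ) ^ n) • φ := by
  rw [h.ker n ψ]
  constructor
  · rintro ⟨φ, rfl⟩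
    exact ⟨φ, nsmul_eq_zsmul_pow p n φ⟩
  · rintro ⟨φ, rfl⟩
    exact ⟨φ, (nsmul_eq_zsmul_pow p n φ).symm⟩

theorem IsAJSystem.torsion {p : ℕ} {AJ : ℕ → L →+ J} (h : IsAJSystem p AJ) (n : ℕ) (ψ : L) :
    p ^ n • AJ n ψ = 0 := by
  rw [← map_nsmul]
  exact (h.ker n _).2 ⟨ψ, rfl⟩

theorem IsAJSystem.eq_iff {p : ℕ} {AJ : ℕ → L →+ J} (h : IsAJSystem p AJ) (n : ℕ) (ψ ψ' : L) :
    AJ n ψ = AJ n ψ' ↔ ∃ φ : L, ψ - ψ' = ((p : ℤ) ^ n) • φ := by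
  rw [← h.ker' n, map_sub, sub_eq_zero]

variable {G : Type*} [Monoid G] [DistribMulAction G J]

/-- The additive relation `σ • AJ n ψ = AJ n ψ'` on `L`. -/
def relOf (AJ : ℕ → L →+ J) (σ : G) (n : ℕ) : AddSubgroup (L × L) :=
  AddMonoidHom.eqLocus
    ((DistribSMul.toAddMonoidHom J σ).comp ((AJ n).comp (AddMonoidHom.fst L L)))
    ((AJ n).comp (AddMonoidHom.snd L L))

theorem mem_relOf {AJ : ℕ → L →+ J} {σ : G} {n : ℕ} {ψ ψ' : L} :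
    (ψ, ψ') ∈ relOf AJ σ n ↔ σ • AJ n ψ = AJ n ψ' :=
  Iff.rfl

theorem smul_nsmul_comm (σ : G) (k : ℕ) (x : J) : σ • (k • x) = k • (σ • x) :=
  map_nsmul (DistribSMul.toAddMonoidHom J σ) k x

theorem smul_torsion {p : ℕ} (σ : G) (n : ℕ) {x : J} (hx : p ^ n • x = 0) :
    p ^ n • (σ • x) = 0 := by
  rw [← smul_nsmul_comm, hx, smul_zero]

theorem isRelSys_relOf {p : ℕ} {AJ : ℕ → L →+ J} (h : IsAJSystem p AJ) (σ : G) :
    IsRelSys p (relOf AJ σ) where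
  total n ψ := by
    obtain ⟨ψ', hψ'⟩ := h.surj n (σ • AJ n ψ) (smul_torsion σ n (h.torsion n ψ))
    exact ⟨ψ', hψ'.symm⟩
  uniq n ψ' hψ' := by
    rw [mem_relOf, map_zero, smul_zero] at hψ'
    exact (h.ker' n ψ').1 hψ'.symm
  anti n := by
    rintro ⟨ψ, ψ'⟩ hψ
    rw [mem_relOf] at hψ ⊢
    rw [← h.compat n ψ, ← h.compat n ψ', ← hψ, smul_nsmul_comm]

/-- Two elements of `G` that agree on the images of a generating family of `L` agree on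
`J[p ^ n]`.  (For the open-stabiliser leaf: `J[p ^ n]` is generated by finitely many points.) -/
theorem IsAJSystem.smul_eq_of_forall_basis {p : ℕ} {AJ : ℕ → L →+ J} (h : IsAJSystem p AJ)
    {ι : Type*} (b : Module.Basis ι ℤ L) (σ τ : G) (n : ℕ)
    (hb : ∀ j, σ • AJ n (b j) = τ • AJ n (b j)) (x : J) (hx : p ^ n • x = 0) :
    σ • x = τ • x := by
  obtain ⟨ψ, rfl⟩ := h.surj n x hx
  have h1 : ((DistribSMul.toAddMonoidHom J σ).comp (AJ n)).toIntLinearMap =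
      ((DistribSMul.toAddMonoidHom J τ).comp (AJ n)).toIntLinearMap := by
    apply b.ext
    intro j
    exact hb j
  exact congrArg (fun f => f ψ) h1

variable {R : Type*} [CommRing R]

/-- The characterising property of the limit action. -/
def IsLimitAction (p : ℕ) (AJ : ℕ → L →+ J) (ρ : G →* Module.End R (R ⊗[ℤ] L)) : Prop :=
  ∀ (σ : G) (n : ℕ) (ψ ψ' : L), σ • AJ n ψ = AJ n ψ' →
    ρ σ ((1 : R) ⊗ₜ[ℤ] ψ) - (1 : R) ⊗ₜ[ℤ] ψ' ∈ pPow R L p n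

variable [IsLocalRing R] [IsNoetherianRing R] [Module.Free ℤ L] [Module.Finite ℤ L]

section Existence

variable [IsAdicComplete (maximalIdeal R) R]

/-- **Existence of the limit action.** -/
theorem exists_limitAction {p : ℕ} (hp : (p : R) ∈ maximalIdeal R) {AJ : ℕ → L →+ J}
    (h : IsAJSystem p AJ) :
    ∃ ρ : G →* Module.End R (R ⊗[ℤ] L), IsLimitAction p AJ ρ := by
  classical
  choose Φ hΦ using fun σ : G => exists_represents (R := R) hp (isRelSys_relOf h σ)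
  have hone : Φ 1 = 1 := by
    refine represents_unique hp (isRelSys_relOf h 1) (hΦ 1) ?_
    intro n ψ ψ' hψ
    rw [mem_relOf, one_smul] at hψ
    rw [Module.End.one_apply, ← TensorProduct.tmul_sub]
    exact tmul_mem_pPow ((h.eq_iff n ψ ψ').1 hψ)
  have hmul : ∀ σ τ : G, Φ (σ * τ) = Φ σ * Φ τ := by
    intro σ τ
    refine represents_unique hp (isRelSys_relOf h (σ * τ)) (hΦ (σ * τ)) ?_
    intro n ψ ψ'' hψ
    rw [mem_relOf, mul_smul] at hψ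
    obtain ⟨ψ', hψ'⟩ := (isRelSys_relOf h τ).total n ψ
    have h1 : (ψ', ψ'') ∈ relOf AJ σ n := by
      rw [mem_relOf] at hψ' ⊢
      rw [← hψ', hψ]
    have h2 := map_mem_pPow (Φ σ) (hΦ τ n ψ ψ' hψ')
    have h3 := hΦ σ n ψ' ψ'' h1
    have h4 : (Φ σ * Φ τ) ((1 : R) ⊗ₜ[ℤ] ψ) - (1 : R) ⊗ₜ[ℤ] ψ'' =
        Φ σ (Φ τ ((1 : R) ⊗ₜ[ℤ] ψ) - (1 : R) ⊗ₜ[ℤ] ψ') +
          (Φ σ ((1 : R) ⊗ₜ[ℤ] ψ') - (1 : R) ⊗ₜ[ℤ] ψ'') := by
      rw [Module.End.mul_apply, map_sub]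
      abel
    rw [h4]
    exact Submodule.add_mem _ h2 h3
  exact ⟨{ toFun := Φ, map_one' := hone, map_mul' := hmul }, fun σ n ψ ψ' hψ => hΦ σ n ψ ψ' hψ⟩

end Existence

variable {p : ℕ} {AJ : ℕ → L →+ J} {ρ : G →* Module.End R (R ⊗[ℤ] L)}

omit [IsLocalRing R] [IsNoetherianRing R] [Module.Free ℤ L] [Module.Finite ℤ L] in
/-- For a limit action, every `ψ` has a level-`n` lift `ψ'` of `σ • AJ n ψ`. -/
theorem IsLimitAction.exists_lift (hρ : IsLimitAction p AJ ρ) (h : IsAJSystem p AJ) (σ : G)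
    (n : ℕ) (ψ : L) :
    ∃ ψ' : L, σ • AJ n ψ = AJ n ψ' ∧
      ρ σ ((1 : R) ⊗ₜ[ℤ] ψ) - (1 : R) ⊗ₜ[ℤ] ψ' ∈ pPow R L p n := by
  obtain ⟨ψ', hψ'⟩ := (isRelSys_relOf h σ).total n ψ
  exact ⟨ψ', hψ', hρ σ n ψ ψ' hψ'⟩

omit [Module.Free ℤ L] in
/-- Uniqueness of the limit action. -/
theorem IsLimitAction.unique (hp : (p : R) ∈ maximalIdeal R) (h : IsAJSystem p AJ)
    {ρ' : G →* Module.End R (R ⊗[ℤ] L)} (hρ : IsLimitAction p AJ ρ)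
    (hρ' : IsLimitAction p AJ ρ') : ρ = ρ' := by
  ext1 σ
  exact represents_unique hp (isRelSys_relOf h σ) (fun n ψ ψ' hψ => hρ σ n ψ ψ' hψ)
    (fun n ψ ψ' hψ => hρ' σ n ψ ψ' hψ)

omit [IsLocalRing R] [IsNoetherianRing R] [Module.Free ℤ L] [Module.Finite ℤ L] in
/-- **Continuity, general form**: if `σ` and `τ` agree on `J[p ^ n]`, then `ρ σ ≡ ρ τ` modulo
`p ^ n`. -/
theorem IsLimitAction.sub_mem_pPow (hρ : IsLimitAction p AJ ρ) (h : IsAJSystem p AJ) (σ τ : G)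
    (n : ℕ) (hστ : ∀ x : J, p ^ n • x = 0 → σ • x = τ • x) (v : R ⊗[ℤ] L) :
    ρ σ v - ρ τ v ∈ pPow R L p n := by
  have key : ∀ ψ : L, (ρ σ - ρ τ) ((1 : R) ⊗ₜ[ℤ] ψ) ∈ pPow R L p n := by
    intro ψ
    obtain ⟨ψ', hψ', hmem⟩ := hρ.exists_lift h σ n ψ
    have hτ : τ • AJ n ψ = AJ n ψ' := by rw [← hστ _ (h.torsion n ψ), hψ']
    have h2 := hρ τ n ψ ψ' hτ
    have h3 : (ρ σ - ρ τ) ((1 : R) ⊗ₜ[ℤ] ψ) =
        (ρ σ ((1 : R) ⊗ₜ[ℤ] ψ) - (1 : R) ⊗ₜ[ℤ] ψ') -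
          (ρ τ ((1 : R) ⊗ₜ[ℤ] ψ) - (1 : R) ⊗ₜ[ℤ] ψ') := by
      rw [LinearMap.sub_apply]
      abel
    rw [h3]
    exact Submodule.sub_mem _ hmem h2
  have := forall_mem_pPow_of_tmul key v
  rwa [LinearMap.sub_apply] at this

omit [IsNoetherianRing R] [Module.Free ℤ L] [Module.Finite ℤ L] in
/-- **Adic continuity** (inner clause of `GaloisActionIsAdicContinuous`): if `σ` fixes
`J[p ^ n]` pointwise then `ρ σ v - v ∈ 𝔪 ^ n • ⊤`. -/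
theorem IsLimitAction.sub_mem_maximalIdeal_pow (hρ : IsLimitAction p AJ ρ)
    (hp : (p : R) ∈ maximalIdeal R) (h : IsAJSystem p AJ) (σ : G) (n : ℕ)
    (hσ : ∀ x : J, p ^ n • x = 0 → σ • x = x) (v : R ⊗[ℤ] L) :
    ρ σ v - v ∈ (maximalIdeal R ^ n) • (⊤ : Submodule R (R ⊗[ℤ] L)) := by
  have h1 := hρ.sub_mem_pPow h σ 1 n (fun x hx => by rw [hσ x hx, one_smul]) v
  rw [map_one, Module.End.one_apply] at h1
  exact pPow_le hp n h1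

omit [Module.Free ℤ L] in
/-- **Trivial inertia**: if `σ` fixes every `J[p ^ n]` pointwise then `ρ σ = 1`. -/
theorem IsLimitAction.eq_one (hρ : IsLimitAction p AJ ρ) (hp : (p : R) ∈ maximalIdeal R)
    (h : IsAJSystem p AJ) (σ : G) (hσ : ∀ (n : ℕ) (x : J), p ^ n • x = 0 → σ • x = x) :
    ρ σ = 1 := by
  apply end_ext_of_forall_mem_pPow hp
  intro n ψ
  have h1 := hρ.sub_mem_pPow h σ 1 n (fun x hx => by rw [hσ n x hx, one_smul]) ((1 : R) ⊗ₜ[ℤ] ψ)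
  rwa [map_one] at h1

omit [Module.Free ℤ L] in
/-- **Hecke commutation**: if `T` on `L` corresponds to `T'` on `J` under all `AJ n` and `σ`
commutes with `T'`, then `ρ σ` commutes with `T ⊗ 1`. -/
theorem IsLimitAction.comm_baseChange (hρ : IsLimitAction p AJ ρ)
    (hp : (p : R) ∈ maximalIdeal R) (h : IsAJSystem p AJ) (T : L →ₗ[ℤ] L) (T' : J →+ J)
    (hT : ∀ n ψ, AJ n (T ψ) = T' (AJ n ψ)) (σ : G) (hσ : ∀ x : J, σ • T' x = T' (σ • x)) :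
    ρ σ * T.baseChange R = T.baseChange R * ρ σ := by
  apply end_ext_of_forall_mem_pPow hp
  intro n ψ
  obtain ⟨ψ', hψ', hmem⟩ := hρ.exists_lift h σ n ψ
  have h1 : σ • AJ n (T ψ) = AJ n (T ψ') := by rw [hT, hσ, hψ', hT]
  have h2 := hρ σ n (T ψ) (T ψ') h1
  have h3 := map_mem_pPow (T.baseChange R) hmem
  have h4 : (ρ σ * T.baseChange R) ((1 : R) ⊗ₜ[ℤ] ψ) - (T.baseChange R * ρ σ) ((1 : R) ⊗ₜ[ℤ] ψ) =
      (ρ σ ((1 : R) ⊗ₜ[ℤ] T ψ) - (1 : R) ⊗ₜ[ℤ] T ψ') -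
        T.baseChange R (ρ σ ((1 : R) ⊗ₜ[ℤ] ψ) - (1 : R) ⊗ₜ[ℤ] ψ') := by
    rw [Module.End.mul_apply, Module.End.mul_apply, map_sub, LinearMap.baseChange_tmul,
      LinearMap.baseChange_tmul]
    abel
  rw [h4]
  exact Submodule.sub_mem _ h2 h3

omit [Module.Free ℤ L] in
/-- **Frobenius quadratic relation**: if `σ² - T' σ + l = 0` on every `J[p ^ n]` then
`ρ σ ^ 2 - (T ⊗ 1) ρ σ + l = 0` on `M`. -/
theorem IsLimitAction.quad (hρ : IsLimitAction p AJ ρ) (hp : (p : R) ∈ maximalIdeal R)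
    (h : IsAJSystem p AJ) (T : L →ₗ[ℤ] L) (T' : J →+ J)
    (hT : ∀ n ψ, AJ n (T ψ) = T' (AJ n ψ)) (σ : G) (l : ℤ)
    (hσ : ∀ (n : ℕ) (x : J), p ^ n • x = 0 → σ • σ • x - T' (σ • x) + l • x = 0) :
    ρ σ * ρ σ - T.baseChange R * ρ σ + (l : R) • (1 : Module.End R (R ⊗[ℤ] L)) = 0 := by
  apply end_ext_of_forall_mem_pPow hp
  intro n ψ
  obtain ⟨ψ', hψ', hmem⟩ := hρ.exists_lift h σ n ψ
  obtain ⟨ψ'', hψ'', hmem'⟩ := hρ.exists_lift h σ n ψ'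
  -- the relation at level `n`
  have hrel : AJ n (ψ'' - T ψ' + l • ψ) = 0 := by
    have h0 := hσ n (AJ n ψ) (h.torsion n ψ)
    rw [map_add, map_sub, map_zsmul, hT, ← hψ'', ← hψ']
    exact h0
  have hdiv := (h.ker' n _).1 hrel
  have h1 := tmul_mem_pPow (R := R) hdiv
  have h2 := map_mem_pPow (ρ σ) hmem
  have h3 := map_mem_pPow (T.baseChange R) hmem
  have h4 : (ρ σ * ρ σ - T.baseChange R * ρ σ + (l : R) • (1 : Module.End R (R ⊗[ℤ] L)))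
        ((1 : R) ⊗ₜ[ℤ] ψ) - (0 : Module.End R (R ⊗[ℤ] L)) ((1 : R) ⊗ₜ[ℤ] ψ) =
      ρ σ (ρ σ ((1 : R) ⊗ₜ[ℤ] ψ) - (1 : R) ⊗ₜ[ℤ] ψ') +
        (ρ σ ((1 : R) ⊗ₜ[ℤ] ψ') - (1 : R) ⊗ₜ[ℤ] ψ'') -
        T.baseChange R (ρ σ ((1 : R) ⊗ₜ[ℤ] ψ) - (1 : R) ⊗ₜ[ℤ] ψ') +
        (1 : R) ⊗ₜ[ℤ] (ψ'' - T ψ' + l • ψ) := by
    rw [LinearMap.add_apply, LinearMap.sub_apply, Module.End.mul_apply, Module.End.mul_apply,
      LinearMap.smul_apply, Module.End.one_apply, LinearMap.zero_apply, map_sub, map_sub,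
      LinearMap.baseChange_tmul, TensorProduct.tmul_add, TensorProduct.tmul_sub, one_tmul_zsmul]
    abel
  rw [h4]
  exact Submodule.add_mem _ (Submodule.sub_mem _ (Submodule.add_mem _ h2 hmem') h3) h1

end Fermat.Agent.S30.H20
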