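/-
S30 (Program A+), leaf (b), part 3: the limit action of the absolute Galois group is
adic-continuous in the sense of the Prelude (`GaloisActionIsAdicContinuous`), given open
stabilisers of the points of `J`.
-/
import Mathlib
import Fermat.Prelude.Def_GaloisRep_Adic
import Fermat.Agent.S30.H20.LimitAction

set_option autoImplicit false

namespace Fermat.Agent.S30.H20

open TensorProduct IsLocalRing

variable {L : Type} [AddCommGroup L] [Module.Free ℤ L] [Module.Finite ℤ L]
  {J : Type*} [AddCommGroup J]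
  [DistribMulAction (AlgebraicClosure ℚ ≃ₐ[ℚ] AlgebraicClosure ℚ) J]
  {A : Type} [CommRing A] [IsLocalRing A]

/-- If every point of `J` has an open stabiliser, then `J[p ^ n]` is fixed pointwise by the
absolute Galois group of a number field. -/
theorem exists_field_fixing_torsion {p : ℕ} {AJ : ℕ → L →+ J} (h : IsAJSystem p AJ)
    (hopen : ∀ x : J, ∃ K : IntermediateField ℚ (AlgebraicClosure ℚ), FiniteDimensional ℚ K ∧
      ∀ σ : AlgebraicClosure ℚ ≃ₐ[ℚ] AlgebraicClosure ℚ, (∀ y ∈ K, σ y = y) → σ • x = x)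
    (n : ℕ) :
    ∃ K : IntermediateField ℚ (AlgebraicClosure ℚ), FiniteDimensional ℚ K ∧
      ∀ σ : AlgebraicClosure ℚ ≃ₐ[ℚ] AlgebraicClosure ℚ, (∀ y ∈ K, σ y = y) →
        ∀ x : J, p ^ n • x = 0 → σ • x = x := by
  classical
  let b := Module.Free.chooseBasis ℤ L
  choose K hK hfix using fun j => hopen (AJ n (b j))
  have : ∀ j, FiniteDimensional ℚ (K j) := hK
  refine ⟨⨆ j, K j, IntermediateField.finiteDimensional_iSup_of_finite, ?_⟩
  intro σ hσ x hx
  have h1 : ∀ j, σ • AJ n (b j) =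
      (1 : AlgebraicClosure ℚ ≃ₐ[ℚ] AlgebraicClosure ℚ) • AJ n (b j) := by
    intro j
    rw [one_smul]
    exact hfix j σ (fun y hy => hσ y ((le_iSup K j) hy))
  rw [h.smul_eq_of_forall_basis b σ 1 n h1 x hx, one_smul]

/-- **Adic continuity of the limit action.** -/
theorem IsLimitAction.isAdicContinuous {p : ℕ} {AJ : ℕ → L →+ J}
    {ρ : (AlgebraicClosure ℚ ≃ₐ[ℚ] AlgebraicClosure ℚ) →* Module.End A (A ⊗[ℤ] L)}
    (hρ : IsLimitAction p AJ ρ) (hp : (p : A) ∈ maximalIdeal A) (h : IsAJSystem p AJ)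
    (hopen : ∀ x : J, ∃ K : IntermediateField ℚ (AlgebraicClosure ℚ), FiniteDimensional ℚ K ∧
      ∀ σ : AlgebraicClosure ℚ ≃ₐ[ℚ] AlgebraicClosure ℚ, (∀ y ∈ K, σ y = y) → σ • x = x) :
    GaloisActionIsAdicContinuous A ρ := by
  intro n
  obtain ⟨K, hK, hfix⟩ := exists_field_fixing_torsion h hopen n
  exact ⟨K, hK, fun σ hσ v => hρ.sub_mem_maximalIdeal_pow hp h σ n (hfix σ hσ) v⟩

end Fermat.Agent.S30.H20
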